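/-
S55 / block UNITS-CL : INDEX of the skeleton.  The statements live in the stubs `Units/Cl/WIP/<Name>.lean`
(one stub = one task = one final file `Units/Cl/<Name>.lean`, same names, same namespace).
  Field    open subgroups of `GQ` = number fields `K` with `[Algebra K Qb]`
  Places   places of `ℚ̄` outside `S` versus primes of `K` outside `S_K` (`below`)
  Ord      `e = 1` outside `S`: `PlOff.ord` restricts to `Exist.ord`
  Div      `H^0(Map(X_K, I_S)) = ⨁_{v ∉ S_K} ℤ` (`divEquiv`)
  LS       `H^0(Map(X_K, ℚ_Sˣ)) = Kˣ` (`lsEquiv`), `valG` induces `Exist.divT`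
  ES       `H^0(Map(X_K, E_S)) = S_K`-units of `K`
  Mu       `μ_p ⊆ K`, `|X_K| = [K : ℚ]`
  Card     `|H^0_S(E_X)/p| = p^(#S_K + r₂)`
  H1       `H^1_S(E_X)` is finite
  Orbits   decomposition group orbits on `X_K` = primes of `K`
  Seq      `0 → E_S → ℚ_Sˣ → P_S → 0`
  LocOrb   orbits of the local Galois groups `Gv q` on `X_K` = primes of `K` over `q`
  Push     corestriction of divisors
-/
import Fermat.Agent.S55.Units.Cl.WIP.Field
import Fermat.Agent.S55.Units.Cl.WIP.Places
import Fermat.Agent.S55.Units.Cl.WIP.Ord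
import Fermat.Agent.S55.Units.Cl.WIP.Div
import Fermat.Agent.S55.Units.Cl.WIP.LS
import Fermat.Agent.S55.Units.Cl.WIP.ES
import Fermat.Agent.S55.Units.Cl.WIP.Mu
import Fermat.Agent.S55.Units.Cl.WIP.Card
import Fermat.Agent.S55.Units.Cl.WIP.H1
import Fermat.Agent.S55.Units.Cl.WIP.Orbits
import Fermat.Agent.S55.Units.Cl.WIP.Seq
import Fermat.Agent.S55.Units.Cl.WIP.LocOrb
import Fermat.Agent.S55.Units.Cl.WIP.Push
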